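import Fermat.Agent.S38T.IA.Hecke.Spec3
import Fermat.Agent.S31.Defs

/-!
# Row HARD, cell HECKE, layer 3, leaves IA-NU / IA-ST: the POINT-LEVEL statements  (helper953)

`IANuStatement_T` and `IAStStatement_T` (`S38/IA/Hecke/Spec3.lean`, v2) are statements on the module
`V / chiRelIA_T χ V`.  The Galois and the dictionary inputs are pointwise.  This file states the
point-level Props; `S38/H953/NuKill.lean` proves

    iaNu_of_pt_953 : IAFreeStatement_T → IANuPtStatement953_T → IANuStatement_T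
    iaSt_of_pt_953 : IAFreeStatement_T → IAStPtStatement953_T → IAStStatement_T.

A **support point** of `V / W` (`W = chiRelIA_T χ V`) is a local `𝒪`-algebra homomorphism
`x : T_Q → 𝒪'` into a COMPLETE discrete valuation ring of characteristic `0` with FINITE residue
field of characteristic `p`, which vanishes on every `s ∈ T_Q` with `a s V ⊆ W` (`IsSuppPt953_T`).

* `IANuPtAt953_T` : at every support point of `V / chiRelIA_T χ V` (`χ` a pivot character) the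
  representation is not unipotent on inertia at any pivot;
* `IAStPtAt953_T` : at every support point of `V / chiRelIA_T 1 V` the Steinberg elements vanish.

Only sorry-free definitions here.
-/

set_option autoImplicit false

open Polynomial IsLocalRing CongruenceSubgroup
open scoped MatrixGroups

namespace Fermat.Agent.S38.H953

variable {ty : Fermat.Agent.S59.Arch.PType}


open Fermat.Agent.S59.Arch Fermat.Agent.S59.TW.H959 Fermat.Agent.S59.TW Fermat.Agent.S59.H765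
open Fermat.Agent.S59.TW.H653 Fermat.Agent.S59.TW.Aut
open Fermat.Agent.S38.IA Fermat.Agent.S38.IA.Hecke
open CuspForm

section At

variable {p : ℕ}
  {𝒪 : Type} [CommRing 𝒪] [IsDomain 𝒪] [IsDiscreteValuationRing 𝒪]
  [IsAdicComplete (maximalIdeal 𝒪) 𝒪]
  {ρbar : ResidualGaloisRep (ResidueField 𝒪)} {Smin : Finset ℕ}
  {Piv : Finset ℕ} {k r : ℕ} {pv : Fin k → ℕ} {qv : Fin r → ℕ}
  [NeZero (wilesLevel p ty Smin (Smin ∪ Piv ∪ Finset.univ.image qv))]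

/-- `x : T_Q → 𝒪'` is a **support point** of `V / W`: it vanishes on every `s ∈ T_Q` which maps
`V` into `W`. -/
def IsSuppPt953_T (PQ : HeckePkg p 𝒪 ρbar ty Smin (Smin ∪ Piv ∪ Finset.univ.image qv))
    (V : Submodule 𝒪 (XIA_T p ty Smin pv qv 𝒪)) (a : PQ.T →ₐ[𝒪] Module.End 𝒪 V)
    (W : Submodule 𝒪 (XIA_T p ty Smin pv qv 𝒪)) {𝒪' : Type} [CommRing 𝒪'] (x : PQ.T →+* 𝒪') : Prop :=
  ∀ s : PQ.T, (∀ v : V, ((a s v : V) : XIA_T p ty Smin pv qv 𝒪) ∈ W) → x s = 0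

/-- **NU at the support points of `V / chiRelIA_T χ V`.** -/
def IANuPtAt953_T (PQ : HeckePkg p 𝒪 ρbar ty Smin (Smin ∪ Piv ∪ Finset.univ.image qv))
    (V : Submodule 𝒪 (XIA_T p ty Smin pv qv 𝒪)) (a : PQ.T →ₐ[𝒪] Module.End 𝒪 V) : Prop :=
  ∀ χ : (∀ i : Fin k, (ZMod (pv i))ˣ) →* 𝒪, IsPivChar p pv χ →
    ∀ (𝒪' : Type) [CommRing 𝒪'] [IsDomain 𝒪'] [IsDiscreteValuationRing 𝒪']
      [IsAdicComplete (maximalIdeal 𝒪') 𝒪'] [Finite (ResidueField 𝒪')] [CharZero 𝒪']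
      [Algebra 𝒪 𝒪'] (x : PQ.T →ₐ[𝒪] 𝒪') (hx : IsLocalHom (x : PQ.T →+* 𝒪')),
      (p : 𝒪') ∈ maximalIdeal 𝒪' →
      IsSuppPt953_T PQ V a (chiRelIA_T p ty Smin pv qv χ V) (x : PQ.T →+* 𝒪') →
      ∀ q ∈ Piv, ¬ (PQ.H.ρ.baseChangeAlong (x : PQ.T →+* 𝒪') hx).IsUnipotentOnInertiaAt q

/-- **ST at the support points of `V / chiRelIA_T 1 V`.** -/
def IAStPtAt953_T (PQ : HeckePkg p 𝒪 ρbar ty Smin (Smin ∪ Piv ∪ Finset.univ.image qv))
    (V : Submodule 𝒪 (XIA_T p ty Smin pv qv 𝒪)) (a : PQ.T →ₐ[𝒪] Module.End 𝒪 V) : Prop :=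
  ∀ (𝒪' : Type) [CommRing 𝒪'] [IsDomain 𝒪'] [IsDiscreteValuationRing 𝒪']
    [IsAdicComplete (maximalIdeal 𝒪') 𝒪'] [Finite (ResidueField 𝒪')] [CharZero 𝒪']
    [Algebra 𝒪 𝒪'] (x : PQ.T →ₐ[𝒪] 𝒪') (_hx : IsLocalHom (x : PQ.T →+* 𝒪')),
    (p : 𝒪') ∈ maximalIdeal 𝒪' →
    IsSuppPt953_T PQ V a (chiRelIA_T p ty Smin pv qv 1 V) (x : PQ.T →+* 𝒪') →
    ∀ q ∈ Piv, ∀ P : ValuationSubring (AlgebraicClosure ℚ), P.LiesOverPrime q →
      ∀ φ : AlgebraicClosure ℚ ≃ₐ[ℚ] AlgebraicClosure ℚ, P.IsFrobeniusAt φ q →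
        x (PQ.H.ρ.trace φ ^ 2 - ((1 + q : ℕ) : PQ.T) ^ 2) = 0

end At

/-- **IA-NU, point level.**  Binders of `IANuStatement_T` VERBATIM; conclusion `IANuPtAt953_T`. -/
def IANuPtStatement953_T : Prop :=
  ∀ (p : ℕ) [Fact p.Prime] (_hp5 : 3 ≤ p)
    (𝒪 : Type) [CommRing 𝒪] [IsDomain 𝒪] [IsDiscreteValuationRing 𝒪]
    [IsAdicComplete (maximalIdeal 𝒪) 𝒪] [Finite (ResidueField 𝒪)] [CharZero 𝒪]
    (ρbar : ResidualGaloisRep (ResidueField 𝒪)) (Smin : Finset ℕ)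
    (_h : ResidualHyp p 𝒪 ρbar Smin)
    (ty : PType) (_hflat : IsPTypeAt p ρbar ty)
    (Piv : Finset ℕ) (_hPiv : IsPivotSet p ρbar Smin Piv)
    (k : ℕ) (pv : Fin k → ℕ) (_hpv : Function.Injective pv)
    (_hpvPiv : Finset.univ.image pv = Piv)
    (n r : ℕ) (qv : Fin r → ℕ) (_hq : IsTWSet p ρbar (Smin ∪ Piv) n qv)
    [NeZero (wilesLevel p ty Smin (Smin ∪ Piv ∪ Finset.univ.image qv))]
    (PQ : HeckePkg p 𝒪 ρbar ty Smin (Smin ∪ Piv ∪ Finset.univ.image qv))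
    (α : Fin r → 𝒪) (_hα : IsFrobLift ρbar qv α)
    (V : Submodule 𝒪 (XIA_T p ty Smin pv qv 𝒪)) (h : ℕ) (a : PQ.T →ₐ[𝒪] Module.End 𝒪 V),
    IsIAPart_T PQ α V → IsHalf p pv h → IsHalf p qv h → IsIAAction_T PQ V h a → IANuPtAt953_T PQ V a

/-- **IA-ST, point level.**  Binders of `IAStStatement_T` VERBATIM (with `_hmin`); conclusion
`IAStPtAt953_T`. -/
def IAStPtStatement953_T : Prop :=
  ∀ (p : ℕ) [Fact p.Prime] (_hp5 : 3 ≤ p)
    (𝒪 : Type) [CommRing 𝒪] [IsDomain 𝒪] [IsDiscreteValuationRing 𝒪]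
    [IsAdicComplete (maximalIdeal 𝒪) 𝒪] [Finite (ResidueField 𝒪)] [CharZero 𝒪]
    (ρbar : ResidualGaloisRep (ResidueField 𝒪)) (Smin : Finset ℕ)
    (_h : ResidualHyp p 𝒪 ρbar Smin)
    (ty : PType) (_hflat : IsPTypeAt p ρbar ty)
    (Piv : Finset ℕ) (_hPiv : IsPivotSet p ρbar Smin Piv)
    (_hmin : ∀ q ∈ Piv, ∀ S : Finset ℕ,
      ¬ ResModular 𝒪 ρbar (ribetLevelT p ty Smin (Piv.erase q)) S)
    (k : ℕ) (pv : Fin k → ℕ) (_hpv : Function.Injective pv)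
    (_hpvPiv : Finset.univ.image pv = Piv)
    (n r : ℕ) (qv : Fin r → ℕ) (_hq : IsTWSet p ρbar (Smin ∪ Piv) n qv)
    [NeZero (wilesLevel p ty Smin (Smin ∪ Piv ∪ Finset.univ.image qv))]
    (PQ : HeckePkg p 𝒪 ρbar ty Smin (Smin ∪ Piv ∪ Finset.univ.image qv))
    (α : Fin r → 𝒪) (_hα : IsFrobLift ρbar qv α)
    (V : Submodule 𝒪 (XIA_T p ty Smin pv qv 𝒪)) (h : ℕ) (a : PQ.T →ₐ[𝒪] Module.End 𝒪 V),
    IsIAPart_T PQ α V → IsHalf p pv h → IsHalf p qv h → IsIAAction_T PQ V h a → IAStPtAt953_T PQ V a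

end Fermat.Agent.S38.H953
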